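import Fermat.Agent.KolmogorovSinai.Generator
import Mathlib.Analysis.Fourier.AddCircle
import Mathlib.MeasureTheory.Integral.IntervalIntegral.Periodic
import Mathlib.MeasureTheory.Constructions.BorelSpace.Real
import Mathlib.MeasureTheory.Function.Floor

/-!
# Digits on the circle

The digits in base `p` generate, and the first `n` of them at `x` with the next digit in base `q`
determine the first `n` at `q • x`.
-/

set_option autoImplicit false

noncomputable section

open MeasureTheory Filter Topology Finset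
open FA.ShannonMcMillan (word)

namespace FA.Rudolph

/-- Multiplication on the circle. -/
def mulMap (a : ℕ) (x : UnitAddCircle) : UnitAddCircle := a • x

/-- The representative in `[0, 1)`. -/
def rep (x : UnitAddCircle) : ℝ := (AddCircle.equivIco (1 : ℝ) 0 x : ℝ)

theorem rep_mem (x : UnitAddCircle) : rep x ∈ Set.Ico (0 : ℝ) 1 := by
  simpa [rep] using (AddCircle.equivIco (1 : ℝ) 0 x).2

theorem coe_rep (x : UnitAddCircle) : ((rep x : ℝ) : UnitAddCircle) = x :=
  AddCircle.coe_equivIco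

theorem rep_coe (t : ℝ) : rep (t : UnitAddCircle) = Int.fract t :=
  (AddCircle.coe_equivIco_mk_apply (p := (1 : ℝ)) t).trans (by rw [div_one, mul_one])

theorem measurable_rep : Measurable rep :=
  measurable_subtype_coe.comp (AddCircle.measurableEquivIco (1 : ℝ) 0).measurable

theorem continuous_mulMap (a : ℕ) : Continuous (mulMap a) := continuous_nsmul a

theorem iterate_mulMap (a : ℕ) : ∀ (n : ℕ) (x : UnitAddCircle), (mulMap a)^[n] x = a ^ n • x
  | 0, x => by simp
  | n + 1, x => by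
    rw [Function.iterate_succ_apply', iterate_mulMap a n x, mulMap, ← mul_nsmul', pow_succ']

theorem mulMap_coe (a : ℕ) (t : ℝ) :
    mulMap a (t : UnitAddCircle) = (((a : ℝ) * t : ℝ) : UnitAddCircle) := by
  rw [mulMap, ← AddCircle.coe_nsmul, nsmul_eq_mul]

theorem iterate_mulMap_rep (a n : ℕ) (x : UnitAddCircle) :
    (mulMap a)^[n] x = (((a : ℝ) ^ n * rep x : ℝ) : UnitAddCircle) := by
  conv_lhs => rw [iterate_mulMap, ← coe_rep x]
  rw [← AddCircle.coe_nsmul, nsmul_eq_mul, Nat.cast_pow]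

variable (p : ℕ) [NeZero p]

/-- The first digit in base `p`. -/
def digit (x : UnitAddCircle) : Fin p :=
  ⟨⌊(p : ℝ) * rep x⌋₊, (Nat.floor_lt (mul_nonneg p.cast_nonneg (rep_mem x).1)).2
    (mul_lt_of_lt_one_right (Nat.cast_pos.2 (Nat.pos_of_ne_zero (NeZero.ne p))) (rep_mem x).2)⟩

theorem measurable_digit : Measurable (digit p) := by
  have h : Measurable fun x => ((digit p x : Fin p) : ℕ) :=
    Nat.measurable_floor.comp (measurable_rep.const_mul (p : ℝ))
  refine measurable_to_countable' fun i => ?_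
  rw [show digit p ⁻¹' {i} = (fun x => ((digit p x : Fin p) : ℕ)) ⁻¹' {(i : ℕ)} by
    ext x
    simp [Fin.ext_iff]]
  exact h (measurableSet_singleton _)

theorem digit_coe (a : ℝ) :
    (((digit p (a : UnitAddCircle) : Fin p) : ℕ) : ℤ) = ⌊(p : ℝ) * a⌋ - p * ⌊a⌋ := by
  show ((⌊(p : ℝ) * rep (a : UnitAddCircle)⌋₊ : ℕ) : ℤ) = _
  rw [rep_coe, Int.natCast_floor_eq_floor (mul_nonneg p.cast_nonneg (Int.fract_nonneg a)),
    Int.fract, mul_sub, show (p : ℝ) * (⌊a⌋ : ℝ) = (((p : ℤ) * ⌊a⌋ : ℤ) : ℝ) by push_cast; ring,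
    Int.floor_sub_intCast]

theorem rep_mulMap (x : UnitAddCircle) :
    rep (mulMap p x) = (p : ℝ) * rep x - ((digit p x : Fin p) : ℕ) := by
  conv_lhs => rw [← coe_rep x, mulMap_coe, rep_coe]
  rw [Int.fract, ← Int.natCast_floor_eq_floor (mul_nonneg p.cast_nonneg (rep_mem x).1),
    Int.cast_natCast]
  rfl

theorem rep_eq_sum : ∀ (n : ℕ) (x : UnitAddCircle),
    rep x = ∑ j : Fin n, ((word (mulMap p) (digit p) n x j : Fin p) : ℕ) / (p : ℝ) ^ ((j : ℕ) + 1)
      + rep ((mulMap p)^[n] x) / (p : ℝ) ^ n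
  | 0, x => by simp
  | n + 1, x => by
    have hp : (p : ℝ) ≠ 0 := Nat.cast_ne_zero.2 (NeZero.ne p)
    conv_lhs => rw [rep_eq_sum n x]
    rw [Fin.sum_univ_castSucc, Function.iterate_succ_apply', rep_mulMap]
    simp only [word, Fin.val_castSucc, Fin.val_last]
    field_simp
    ring

/-- The point with given first digits and given position in the last cell. -/
def point {n : ℕ} (w : Fin n → Fin p) (t : ℝ) : UnitAddCircle :=
  ((∑ j : Fin n, ((w j : Fin p) : ℕ) / (p : ℝ) ^ ((j : ℕ) + 1) + t / (p : ℝ) ^ n : ℝ) :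
    UnitAddCircle)

theorem point_word (n : ℕ) (x : UnitAddCircle) :
    point p (word (mulMap p) (digit p) n x) (rep ((mulMap p)^[n] x)) = x := by
  rw [point, ← rep_eq_sum, coe_rep]

theorem abs_rep_sub_le {n : ℕ} {x y : UnitAddCircle}
    (h : word (mulMap p) (digit p) n x = word (mulMap p) (digit p) n y) :
    |rep x - rep y| ≤ 1 / (p : ℝ) ^ n := by
  rw [rep_eq_sum p n x, rep_eq_sum p n y, h, add_sub_add_left_eq_sub, ← sub_div, abs_div,
    abs_of_nonneg (by positivity : (0 : ℝ) ≤ (p : ℝ) ^ n)]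
  refine div_le_div_of_nonneg_right ?_ (by positivity)
  have h1 := rep_mem ((mulMap p)^[n] x)
  have h2 := rep_mem ((mulMap p)^[n] y)
  rw [abs_le]
  constructor <;> linarith [h1.1, h1.2, h2.1, h2.2]

/-- **The digits generate.** -/
theorem iSup_comap_digit (hp : 2 ≤ p) :
    ⨆ n, MeasurableSpace.comap (digit p ∘ (mulMap p)^[n]) inferInstance =
      (inferInstance : MeasurableSpace UnitAddCircle) := by
  refine le_antisymm (iSup_le fun n =>
    ((measurable_digit p).comp ((continuous_mulMap p).iterate n).measurable).comap_le) ?_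
  set m : MeasurableSpace UnitAddCircle :=
    ⨆ n, MeasurableSpace.comap (digit p ∘ (mulMap p)^[n]) inferInstance
  have hd : ∀ n, Measurable[m] (digit p ∘ (mulMap p)^[n]) := fun n =>
    Measurable.of_comap_le (le_iSup
      (fun n => MeasurableSpace.comap (digit p ∘ (mulMap p)^[n]) inferInstance) n)
  have hsum : ∀ n, Measurable[m] fun x => ∑ j : Fin n,
      ((word (mulMap p) (digit p) n x j : Fin p) : ℕ) / (p : ℝ) ^ ((j : ℕ) + 1) := fun n =>
    @Finset.measurable_sum _ _ _ _ _ _ m _ Finset.univ fun j _ =>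
      (measurable_of_finite fun a : Fin p => ((a : ℕ) : ℝ) / (p : ℝ) ^ ((j : ℕ) + 1)).comp
        (hd (j : ℕ))
  have hrep : Measurable[m] rep := by
    refine @measurable_of_tendsto_metrizable _ _ m _ _ _ _ _ _ hsum (tendsto_pi_nhds.2 fun x => ?_)
    have h1 : Tendsto (fun n : ℕ => rep ((mulMap p)^[n] x) / (p : ℝ) ^ n) atTop (𝓝 0) :=
      squeeze_zero (fun n => div_nonneg (rep_mem _).1 (by positivity))
        (fun n => div_le_div_of_nonneg_right (rep_mem _).2.le (by positivity))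
        (by simpa [Function.comp_def] using tendsto_inv_atTop_zero.comp
              (tendsto_pow_atTop_atTop_of_one_lt (Nat.one_lt_cast.2 hp : (1 : ℝ) < p)))
    have h2 := (tendsto_const_nhds (x := rep x)).sub h1
    rw [sub_zero] at h2
    refine h2.congr fun n => ?_
    conv_lhs => rw [rep_eq_sum p n x, add_sub_cancel_right]
  intro s hs
  have h := hrep (AddCircle.measurable_mk' hs)
  rwa [← Set.preimage_comp, show ((fun t : ℝ => (t : UnitAddCircle)) ∘ rep) = id from
    funext coe_rep, Set.preimage_id] at h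

/-- **A word and one more digit determine the word of the image.** -/
theorem word_mulMap_eq (q : ℕ) [NeZero q] {n : ℕ} {x y : UnitAddCircle}
    (h : word (mulMap p) (digit p) n x = word (mulMap p) (digit p) n y)
    (hc : digit q ((mulMap p)^[n] x) = digit q ((mulMap p)^[n] y)) :
    word (mulMap p) (digit p) n (mulMap q x) = word (mulMap p) (digit p) n (mulMap q y) := by
  have hp : (0 : ℝ) < p := Nat.cast_pos.2 (Nat.pos_of_ne_zero (NeZero.ne p))
  have hfr : ∀ z, Int.fract ((p : ℝ) ^ n * rep z) = rep ((mulMap p)^[n] z) := fun z => by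
    rw [iterate_mulMap_rep, rep_coe]
  have hfl : ⌊(p : ℝ) ^ n * rep x⌋ = ⌊(p : ℝ) ^ n * rep y⌋ := by
    have e : ∀ z, (⌊(p : ℝ) ^ n * rep z⌋ : ℝ) = (p : ℝ) ^ n * ∑ j : Fin n,
        ((word (mulMap p) (digit p) n z j : Fin p) : ℕ) / (p : ℝ) ^ ((j : ℕ) + 1) := fun z => by
      rw [← Int.self_sub_fract, hfr]
      conv_lhs => rw [rep_eq_sum p n z, mul_add, mul_div_cancel₀ _ (pow_pos hp n).ne',
        add_sub_cancel_right]
    exact_mod_cast (e x).trans ((congrArg (fun w : Fin n → Fin p => (p : ℝ) ^ n *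
      ∑ j : Fin n, ((w j : Fin p) : ℕ) / (p : ℝ) ^ ((j : ℕ) + 1)) h).trans (e y).symm)
  have hq : ⌊(q : ℝ) * ((p : ℝ) ^ n * rep x)⌋ = ⌊(q : ℝ) * ((p : ℝ) ^ n * rep y)⌋ := by
    have hx := digit_coe q ((p : ℝ) ^ n * rep x)
    have hy := digit_coe q ((p : ℝ) ^ n * rep y)
    rw [← iterate_mulMap_rep] at hx hy
    rw [hc] at hx
    rw [hfl] at hx
    omega
  have hlow : ∀ i ≤ n, ⌊(q : ℝ) * ((p : ℝ) ^ i * rep x)⌋ = ⌊(q : ℝ) * ((p : ℝ) ^ i * rep y)⌋ := by
    intro i hi
    obtain ⟨k, rfl⟩ := Nat.exists_eq_add_of_le hi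
    have e : ∀ z, (q : ℝ) * ((p : ℝ) ^ i * rep z) =
        (q : ℝ) * ((p : ℝ) ^ (i + k) * rep z) / ((p ^ k : ℕ) : ℝ) := fun z => by
      rw [Nat.cast_pow, pow_add]
      field_simp
    rw [e x, e y, Int.floor_div_natCast, Int.floor_div_natCast, hq]
  funext j
  have hd : ∀ z, word (mulMap p) (digit p) n (mulMap q z) j =
      digit p (((q : ℝ) * ((p : ℝ) ^ (j : ℕ) * rep z) : ℝ) : UnitAddCircle) := fun z => by
    show digit p ((mulMap p)^[(j : ℕ)] (mulMap q z)) = _
    congr 1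
    conv_lhs => rw [iterate_mulMap, mulMap, ← mul_nsmul', ← coe_rep z]
    rw [← AddCircle.coe_nsmul, nsmul_eq_mul]
    congr 1
    push_cast
    ring
  rw [hd, hd]
  refine Fin.ext (Nat.cast_injective (R := ℤ) ?_)
  rw [digit_coe, digit_coe, hlow j j.2.le]
  have e : ∀ z, (p : ℝ) * ((q : ℝ) * ((p : ℝ) ^ (j : ℕ) * rep z)) =
      (q : ℝ) * ((p : ℝ) ^ ((j : ℕ) + 1) * rep z) := fun z => by ring
  rw [e, e, hlow _ j.2]

/-- **The sum of a character over the points with prescribed tail.** -/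
theorem norm_sum_fourier_point_le (k : ℤ) (n : ℕ) (t : ℝ) :
    ‖∑ w : Fin n → Fin p, fourier k (point p w t)‖ ≤
      if ((p : ℤ) ^ n) ∣ k then (p : ℝ) ^ n else 0 := by
  classical
  have hp : (p : ℂ) ≠ 0 := Nat.cast_ne_zero.2 (NeZero.ne p)
  have hn1 : ∀ x : UnitAddCircle, ‖fourier k x‖ = 1 := fun x => Circle.norm_coe _
  split_ifs with hk
  · refine (norm_sum_le_of_le _ fun w _ => (hn1 _).le).trans (le_of_eq ?_)
    simp
  refine le_of_eq (norm_eq_zero.2 ?_)
  set ζ : ℕ → ℂ := fun j => Complex.exp (2 * Real.pi * Complex.I * k / (p : ℂ) ^ (j + 1))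
  have hfac : ∀ w : Fin n → Fin p, fourier k (point p w t) =
      Complex.exp (2 * Real.pi * Complex.I * k * t / (p : ℂ) ^ n) *
        ∏ j : Fin n, ζ j ^ ((w j : Fin p) : ℕ) := fun w => by
    simp only [ζ, point, fourier_coe_apply, ← Complex.exp_nat_mul, ← Complex.exp_sum,
      ← Complex.exp_add]
    congr 1
    push_cast
    rw [mul_add, Finset.mul_sum, div_one, add_comm]
    exact congrArg₂ (· + ·) (by ring) (Finset.sum_congr rfl fun j _ => by ring)
  simp only [hfac, ← Finset.mul_sum, ← Fintype.prod_sum fun (j : Fin n) (a : Fin p) =>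
    ζ j ^ (a : ℕ)]
  refine mul_eq_zero_of_right _ ?_
  have hex : ∃ j, ¬((p : ℤ) ^ (j + 1)) ∣ k := by
    rcases n with - | n
    · exact absurd (one_dvd k) (by simp at hk)
    · exact ⟨n, hk⟩
  set j₀ := Nat.find hex
  have hj₀ : ¬((p : ℤ) ^ (j₀ + 1)) ∣ k := Nat.find_spec hex
  have hj₀' : ((p : ℤ) ^ j₀) ∣ k := by
    by_contra h
    rcases Nat.eq_zero_or_pos j₀ with h0 | h0
    · exact h (by rw [h0, pow_zero]; exact one_dvd k)
    · exact Nat.find_min hex (m := j₀ - 1) (by omega) (by rwa [Nat.sub_add_cancel h0])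
  have hj₀n : j₀ < n := by
    by_contra h
    exact hk ((pow_dvd_pow _ (not_lt.1 h)).trans hj₀')
  refine Finset.prod_eq_zero (Finset.mem_univ (⟨j₀, hj₀n⟩ : Fin n)) ?_
  have hpow : ζ j₀ ^ p = 1 := by
    obtain ⟨r, hr⟩ := hj₀'
    rw [← Complex.exp_nat_mul, Complex.exp_eq_one_iff]
    refine ⟨r, ?_⟩
    rw [hr, pow_succ]
    push_cast
    field_simp
  have hne : ζ j₀ ≠ 1 := by
    intro h
    obtain ⟨r, hr⟩ := Complex.exp_eq_one_iff.1 h
    refine hj₀ ⟨r, ?_⟩
    rw [div_eq_iff (pow_ne_zero _ hp)] at hr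
    have h2 : (k : ℂ) = (p : ℂ) ^ (j₀ + 1) * r :=
      mul_left_cancel₀ Complex.two_pi_I_ne_zero (hr.trans (by ring))
    exact_mod_cast h2
  show ∑ a : Fin p, ζ j₀ ^ (a : ℕ) = 0
  rw [Fin.sum_univ_eq_sum_range fun a => ζ j₀ ^ a, geom_sum_eq hne, hpow, sub_self, zero_div]

end FA.Rudolph

end
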