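import Fermat.Agent.Rudolph.Gaps
import Fermat.Agent.Rudolph.Digits
import Fermat.Agent.NormalBases.Normal

/-!
# Host's estimate

The exponential sum of `q ^ m • x` has bounded square on the fibres of a power of `p` of its own
size, and the fibre inequality turns this into a saving where the entropy function is positive.
-/

set_option autoImplicit false

noncomputable section

open MeasureTheory Filter Topology Finset
open FA.ShannonMcMillan (word gap)
open scoped ENNReal ComplexConjugate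

namespace FA.Rudolph

variable {p q : ℕ}

/-- The exponential mean along the orbit of `x` under multiplication by `q`. -/
def cMean (q : ℕ) (l : ℤ) (N : ℕ) (x : UnitAddCircle) : ℂ :=
  (∑ m ∈ range N, fourier l ((mulMap q)^[m] x)) / (N : ℂ)

theorem continuous_cMean (q : ℕ) (l : ℤ) (N : ℕ) : Continuous (cMean q l N) :=
  (continuous_finsetSum _ fun m _ =>
    (fourier l).continuous.comp ((continuous_mulMap q).iterate m)).div_const _

theorem fourier_iterate_mulMap (q : ℕ) (l : ℤ) (m : ℕ) (x : UnitAddCircle) :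
    fourier l ((mulMap q)^[m] x) = fourier (l * (q : ℤ) ^ m) x := by
  rw [iterate_mulMap, fourier_apply, fourier_apply, mul_zsmul,
    ← natCast_zsmul, Nat.cast_pow]

/-- **Powers of `q` congruent modulo a power of `p` are far apart.** -/
theorem exists_gap_const (hp : p ≠ 0) (hq : 2 ≤ q) (hpq : p.Coprime q) {l : ℤ} (hl : l ≠ 0) :
    ∃ K : ℕ, ∀ n a b : ℕ, a < b → ((p : ℤ) ^ n) ∣ l * (q : ℤ) ^ b - l * (q : ℤ) ^ a →
      p ^ n ≤ K * (b - a) := by
  obtain ⟨C, -, hC⟩ := FA.NormalBases.exists_dvd_bound hp hq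
  refine ⟨l.natAbs * C, fun n a b hab h => ?_⟩
  obtain ⟨d, rfl⟩ := Nat.exists_eq_add_of_le hab.le
  rw [show l * (q : ℤ) ^ (a + d) - l * (q : ℤ) ^ a = (q : ℤ) ^ a * (l * ((q : ℤ) ^ d - 1)) by ring]
    at h
  have hd : 0 < d := by omega
  have h1 : (1 : ℕ) ≤ q ^ d := Nat.one_le_pow _ _ (by omega)
  have h2 : p ^ n ∣ q ^ a * (l.natAbs * (q ^ d - 1)) := by
    have := Int.natAbs_dvd_natAbs.2 h
    rwa [Int.natAbs_pow, Int.natAbs_natCast, Int.natAbs_mul, Int.natAbs_mul, Int.natAbs_pow,
      Int.natAbs_natCast, show ((q : ℤ) ^ d - 1) = ((q ^ d - 1 : ℕ) : ℤ) by push_cast [h1]; ring,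
      Int.natAbs_natCast] at this
  obtain ⟨k₁, k₂, hk₁, hk₂, hk⟩ :=
    Nat.dvd_mul.1 ((hpq.pow n a).dvd_of_dvd_mul_left h2)
  have h3 : k₁ ≤ l.natAbs := Nat.le_of_dvd (Int.natAbs_pos.2 hl) hk₁
  have h4 : k₂ ≤ C * d := hC k₂ d hd (fun r hr hrk => hr.dvd_of_dvd_pow
    (hrk.trans (hk ▸ dvd_mul_left k₂ k₁))) hk₂
  rw [← hk, show a + d - a = d by omega, mul_assoc]
  exact Nat.mul_le_mul h3 h4

/-- **The square on a fibre.** -/
theorem sum_norm_sq_le (p q : ℕ) [NeZero p] {l : ℤ} {K : ℕ}
    (hK : ∀ n a b : ℕ, a < b → ((p : ℤ) ^ n) ∣ l * (q : ℤ) ^ b - l * (q : ℤ) ^ a →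
      p ^ n ≤ K * (b - a)) {N n : ℕ} (hn : p ^ n ≤ N) (hN : N < p ^ (n + 1)) (t : ℝ) :
    ∑ w : Fin n → Fin p, ‖cMean q l N (point p w t)‖ ^ 2 ≤ K * p + 1 := by
  classical
  have hp0 : 0 < p := Nat.pos_of_ne_zero (NeZero.ne p)
  have hN0 : 0 < N := (pow_pos hp0 n).trans_le hn
  set k : ℕ → ℤ := fun m => l * (q : ℤ) ^ m
  set S : ℕ → Finset ℕ := fun m' => (range N).filter fun m => ((p : ℤ) ^ n) ∣ k m - k m'
  have hS : ∀ m', (S m').card ≤ K * p + 1 := fun m' => by
    have h : ∀ a b, a ∈ S m' → b ∈ S m' → a < b → p ^ n ≤ K * (b - a) := fun a b ha hb hab =>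
      hK n a b hab (by
        have := dvd_sub (Finset.mem_filter.1 hb).2 (Finset.mem_filter.1 ha).2
        rwa [sub_sub_sub_cancel_right] at this)
    refine (Finset.card_le_card_of_injOn (fun m => K * m / p ^ n) (fun m hm => ?_)
      fun a ha b hb hab => ?_).trans_eq (card_range _)
    · have h1 := Finset.mem_range.1 (Finset.mem_filter.1 hm).1
      refine Finset.mem_range.2 (Nat.lt_succ_of_le (Nat.div_le_of_le_mul ?_))
      rw [show p ^ n * (K * p) = K * p ^ (n + 1) by ring]
      exact Nat.mul_le_mul le_rfl (h1.trans hN).le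
    · by_contra hne
      have key : ∀ u v, u ∈ S m' → v ∈ S m' → u < v → K * u / p ^ n ≠ K * v / p ^ n := by
        intro u v hu hv huv
        have h2 := h u v hu hv huv
        rw [Nat.mul_sub] at h2
        have h3 : K * u + p ^ n ≤ K * v := by
          have := pow_pos hp0 n
          omega
        have h4 := Nat.div_le_div_right (c := p ^ n) h3
        rw [Nat.add_div_right _ (pow_pos hp0 n)] at h4
        omega
      rcases lt_or_gt_of_ne hne with h' | h'
      · exact key a b ha hb h' hab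
      · exact key b a hb ha h' hab.symm
  have hsq : ∀ x : UnitAddCircle, ((‖∑ m ∈ range N, fourier (k m) x‖ ^ 2 : ℝ) : ℂ) =
      ∑ m' ∈ range N, ∑ m ∈ range N, fourier (k m - k m') x := fun x => by
    rw [Complex.ofReal_pow, ← Complex.mul_conj', map_sum, Finset.mul_sum]
    refine Finset.sum_congr rfl fun m' _ => ?_
    rw [Finset.sum_mul]
    refine Finset.sum_congr rfl fun m _ => ?_
    rw [sub_eq_add_neg, fourier_add, fourier_neg]
  have hmain : ∑ w : Fin n → Fin p, ‖∑ m ∈ range N, fourier (k m) (point p w t)‖ ^ 2 ≤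
      (p : ℝ) ^ n * (N * (K * p + 1)) := by
    set A := ∑ w : Fin n → Fin p, ‖∑ m ∈ range N, fourier (k m) (point p w t)‖ ^ 2
    have hA : (0 : ℝ) ≤ A := Finset.sum_nonneg fun w _ => sq_nonneg _
    calc A = ‖(A : ℂ)‖ := by rw [Complex.norm_real, Real.norm_of_nonneg hA]
      _ = ‖∑ m' ∈ range N, ∑ m ∈ range N,
            ∑ w : Fin n → Fin p, fourier (k m - k m') (point p w t)‖ := by
          rw [Complex.ofReal_sum]
          simp only [hsq]
          rw [Finset.sum_comm]
          exact congrArg _ (Finset.sum_congr rfl fun m' _ => Finset.sum_comm)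
      _ ≤ ∑ m' ∈ range N, ∑ m ∈ range N,
            if ((p : ℤ) ^ n) ∣ k m - k m' then (p : ℝ) ^ n else 0 :=
          norm_sum_le_of_le _ fun m' _ =>
            norm_sum_le_of_le _ fun m _ => norm_sum_fourier_point_le p _ n t
      _ ≤ ∑ _m' ∈ range N, (p : ℝ) ^ n * (K * p + 1) := by
          refine Finset.sum_le_sum fun m' _ => ?_
          rw [← Finset.sum_filter, Finset.sum_const, nsmul_eq_mul, mul_comm]
          exact mul_le_mul_of_nonneg_left (by exact_mod_cast hS m') (by positivity)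
      _ = _ := by rw [Finset.sum_const, card_range, nsmul_eq_mul]; ring
  simp only [cMean, fourier_iterate_mulMap, norm_div, Complex.norm_natCast, div_pow,
    ← Finset.sum_div]
  rw [div_le_iff₀ (by positivity)]
  refine hmain.trans ?_
  have : (p : ℝ) ^ n ≤ N := by exact_mod_cast hn
  nlinarith [mul_le_mul_of_nonneg_right this
    (by positivity : (0 : ℝ) ≤ (N : ℝ) * (K * p + 1))]

/-- The fibre inequality for a continuous nonnegative function on the circle. -/
theorem lintegral_le_of_fibre_le (p : ℕ) [NeZero p] (hp : 2 ≤ p) {μ : Measure UnitAddCircle}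
    [IsProbabilityMeasure μ] (hT : MeasurePreserving (mulMap p) μ μ) {g : UnitAddCircle → ℝ}
    (hg : ∀ᵐ x ∂μ, Tendsto (fun k => gap μ (mulMap p) (digit p) k x) atTop (𝓝 (g x))) {n : ℕ}
    {F : UnitAddCircle → ℝ} (hF : Continuous F) (hF0 : ∀ x, 0 ≤ F x) {C : ℝ}
    (hC : ∀ t : ℝ, ∑ w : Fin n → Fin p, F (point p w t) ≤ C) :
    ∫⁻ x, ENNReal.ofReal (F x * Real.exp (∑ i ∈ range n, g ((mulMap p)^[i] x))) ∂μ ≤
      ENNReal.ofReal C := by
  classical
  refine lintegral_mul_exp_le hT (measurable_digit p) hg hF.measurable fun ω hω => ?_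
  have hp0 : (0 : ℝ) < p := Nat.cast_pos.2 (by omega)
  set ω' := ω / (p : ℝ) ^ n
  have hu : ∀ w : Fin n → Fin p, ∀ᶠ m : ℕ in atTop, ∀ s ∈ Set.Icc (0 : ℝ) 1,
      ∀ t ∈ Set.Icc (0 : ℝ) 1, |s - t| ≤ 1 / (p : ℝ) ^ m →
        F (point p w s) ≤ F (point p w t) + ω' := fun w => by
    have hc : Continuous fun t : ℝ => F (point p w t) :=
      hF.comp ((AddCircle.continuous_mk' (1 : ℝ)).comp
        (continuous_const.add (continuous_id.div_const _)))
    obtain ⟨δ, hδ, h⟩ := Metric.uniformContinuousOn_iff.1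
      (isCompact_Icc.uniformContinuousOn_of_continuous hc.continuousOn) ω'
      (div_pos hω (pow_pos hp0 n))
    have hlim : Tendsto (fun m : ℕ => 1 / (p : ℝ) ^ m) atTop (𝓝 0) :=
      tendsto_const_nhds.div_atTop (tendsto_pow_atTop_atTop_of_one_lt (Nat.one_lt_cast.2 hp))
    filter_upwards [hlim.eventually_lt_const hδ] with m hm s hs t ht hst
    have h1 := h s hs t ht (by rw [Real.dist_eq]; exact hst.trans_lt hm)
    rw [Real.dist_eq, abs_lt] at h1
    linarith
  filter_upwards [eventually_all.2 hu] with m hm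
  let t : (Fin m → Fin p) → ℝ := fun v =>
    if h : ∃ y, word (mulMap p) (digit p) m y = v then rep h.choose else 0
  refine ⟨fun w v => F (point p w (t v)) + ω',
    fun w v => add_nonneg (hF0 _) (div_nonneg hω.le (by positivity)), fun x => ?_, fun v => ?_⟩
  · set y := (mulMap p)^[n] x
    have hex : ∃ z, word (mulMap p) (digit p) m z = word (mulMap p) (digit p) m y := ⟨y, rfl⟩
    conv_lhs => rw [← point_word p n x]
    simp only [t, dif_pos hex]
    exact hm _ _ (Set.Ico_subset_Icc_self (rep_mem y)) _ (Set.Ico_subset_Icc_self (rep_mem _))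
      (abs_rep_sub_le p hex.choose_spec.symm)
  · rw [Finset.sum_add_distrib, Finset.sum_const, nsmul_eq_mul]
    refine add_le_add (hC _) (le_of_eq ?_)
    simp only [ω', Finset.card_univ, Fintype.card_fun, Fintype.card_fin, Nat.cast_pow]
    rw [mul_div_cancel₀ _ (pow_pos hp0 n).ne']

/-- **Host's estimate.** -/
theorem ae_expMeanZero_of_pos (p : ℕ) [NeZero p] (hp : 2 ≤ p) (hq : 2 ≤ q) (hpq : p.Coprime q)
    {μ : Measure UnitAddCircle} [IsProbabilityMeasure μ]
    (hT : MeasurePreserving (mulMap p) μ μ) {g L : UnitAddCircle → ℝ} (hgm : Measurable g)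
    (hg : ∀ᵐ x ∂μ, Tendsto (fun k => gap μ (mulMap p) (digit p) k x) atTop (𝓝 (g x)))
    (hgL : ∀ᵐ x ∂μ,
      Tendsto (fun n : ℕ => (∑ j ∈ range n, g ((mulMap p)^[j] x)) / n) atTop (𝓝 (L x))) :
    ∀ᵐ x ∂μ, 0 < L x →
      FA.Equidist.ExpMeanZero range fun m => (q : ℝ) ^ m * rep x := by
  have hone : ∀ (l : ℤ) (j : ℕ), l ≠ 0 → ∀ᵐ x ∂μ, 1 / ((j : ℝ) + 1) < L x →
      Tendsto (fun N : ℕ => cMean q l N x) atTop (𝓝 0) := by
    intro l j hl
    obtain ⟨K, hK⟩ := exists_gap_const (by omega : p ≠ 0) hq hpq hl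
    set η : ℝ := 1 / ((j : ℝ) + 1) with hη
    have hη0 : 0 < η := by positivity
    have hlogp : 0 < Real.log p := Real.log_pos (Nat.one_lt_cast.2 hp)
    set M : ℕ := ⌈2 * Real.log p / η⌉₊ + 1
    have hM : 2 * Real.log p / η ≤ M := by
      simp only [M, Nat.cast_add, Nat.cast_one]
      linarith [Nat.le_ceil (2 * Real.log p / η)]
    set n : ℕ → ℕ := fun k => Nat.log p ((k + 1) ^ M)
    set F : ℕ → UnitAddCircle → ℝ := fun k x => ‖cMean q l ((k + 1) ^ M) x‖ ^ 2
    set S : ℕ → UnitAddCircle → ℝ := fun k x => ∑ i ∈ range (n k), g ((mulMap p)^[i] x)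
    set b : ℕ → UnitAddCircle → ℝ≥0∞ := fun k =>
      {x | η * n k ≤ S k x}.indicator fun x => ENNReal.ofReal (F k x)
    have hT' : Measurable (mulMap p) := (continuous_mulMap p).measurable
    have hSm : ∀ k, Measurable (S k) := fun k =>
      Finset.measurable_sum _ fun i _ => hgm.comp (hT'.iterate i)
    have hFc : ∀ k, Continuous (F k) := fun k => ((continuous_cMean q l _).norm).pow 2
    have hbm : ∀ k, Measurable (b k) := fun k => (hFc k).measurable.ennreal_ofReal.indicator
      (measurableSet_le measurable_const (hSm k))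
    have hfib : ∀ k, ∫⁻ x, ENNReal.ofReal (F k x * Real.exp (S k x)) ∂μ ≤
        ENNReal.ofReal (K * p + 1) := fun k =>
      lintegral_le_of_fibre_le p hp hT hg (hFc k) (fun x => sq_nonneg _) fun t =>
        sum_norm_sq_le p q hK (Nat.pow_log_le_self p (pow_ne_zero _ k.succ_ne_zero))
          (Nat.lt_pow_succ_log_self hp _) t
    have hexp : ∀ k : ℕ, Real.exp (-(η * n k)) ≤ Real.exp η * (1 / ((k : ℝ) + 1) ^ 2) := by
      intro k
      have hk : (0 : ℝ) < (k : ℝ) + 1 := by positivity
      have h1 : (((k + 1) ^ M : ℕ) : ℝ) ≤ (p : ℝ) ^ (n k + 1) := by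
        exact_mod_cast (Nat.lt_pow_succ_log_self hp _).le
      have h2 := Real.log_le_log (by positivity) h1
      rw [Nat.cast_pow, Real.log_pow, Real.log_pow] at h2
      push_cast at h2
      have hlk : 0 ≤ Real.log ((k : ℝ) + 1) :=
        Real.log_nonneg (by linarith [k.cast_nonneg (α := ℝ)])
      rw [div_le_iff₀ hη0] at hM
      have h3 : 2 * Real.log ((k : ℝ) + 1) ≤ η * (n k + 1) := by
        have h4 := mul_le_mul_of_nonneg_right hM hlk
        have h5 := mul_le_mul_of_nonneg_left h2 hη0.le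
        nlinarith
      rw [one_div, ← Real.exp_log (pow_pos hk 2), ← Real.exp_neg, ← Real.exp_add,
        Real.exp_le_exp, Real.log_pow]
      push_cast
      linarith
    have hb : ∀ k, ∫⁻ x, b k x ∂μ ≤
        ENNReal.ofReal (Real.exp η * (K * p + 1) * (1 / ((k : ℝ) + 1) ^ 2)) := fun k => by
      calc ∫⁻ x, b k x ∂μ ≤ ∫⁻ x, ENNReal.ofReal (Real.exp (-(η * n k))) *
            ENNReal.ofReal (F k x * Real.exp (S k x)) ∂μ := lintegral_mono fun x => by
            refine Set.indicator_apply_le' (fun hx => ?_) fun _ => zero_le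
            rw [← ENNReal.ofReal_mul (Real.exp_pos _).le]
            refine ENNReal.ofReal_le_ofReal ?_
            rw [mul_left_comm, ← Real.exp_add]
            exact le_mul_of_one_le_right (sq_nonneg _) (Real.one_le_exp (by
              simp only [Set.mem_ofPred_eq] at hx
              linarith))
        _ ≤ ENNReal.ofReal (Real.exp (-(η * n k))) * ENNReal.ofReal (K * p + 1) := by
            rw [lintegral_const_mul' _ _ ENNReal.ofReal_ne_top]
            exact mul_le_mul' le_rfl (hfib k)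
        _ ≤ _ := by
            rw [← ENNReal.ofReal_mul (Real.exp_pos _).le, mul_right_comm]
            exact ENNReal.ofReal_le_ofReal
              (mul_le_mul_of_nonneg_right (hexp k) (by positivity))
    have hfin : ∫⁻ x, ∑' k, b k x ∂μ ≠ ⊤ := by
      rw [lintegral_tsum fun k => (hbm k).aemeasurable]
      refine ne_top_of_le_ne_top ?_ (ENNReal.tsum_le_tsum hb)
      rw [← ENNReal.ofReal_tsum_of_nonneg (fun k => by positivity)]
      · exact ENNReal.ofReal_ne_top
      · refine Summable.mul_left _ ?_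
        simpa using (summable_nat_add_iff 1).2 (Real.summable_one_div_nat_pow.2 one_lt_two)
    filter_upwards [ae_lt_top (Measurable.tsum hbm) hfin, hgL] with x hx hxL hjL
    have hn : Tendsto n atTop atTop := tendsto_atTop_atTop.2 fun B =>
      ⟨p ^ B, fun k hk => Nat.le_log_of_pow_le hp
        (hk.trans ((Nat.le_succ k).trans (Nat.le_self_pow (by omega) _)))⟩
    have hS : ∀ᶠ k in atTop, η * n k ≤ S k x := by
      refine hn.eventually (p := fun m => η * m ≤ ∑ i ∈ range m, g ((mulMap p)^[i] x)) ?_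
      filter_upwards [hxL.eventually_const_le hjL, eventually_gt_atTop 0] with m hm hm0
      rwa [le_div_iff₀ (Nat.cast_pos.2 hm0)] at hm
    have h1 := (ENNReal.tendsto_toReal ENNReal.zero_ne_top).comp
      (ENNReal.tendsto_atTop_zero_of_tsum_ne_top hx.ne)
    rw [ENNReal.toReal_zero] at h1
    have h2 : Tendsto (fun k => F k x) atTop (𝓝 0) := h1.congr' (hS.mono fun k hk => by
      simp only [Function.comp_apply, b, Set.indicator_of_mem (show x ∈ {x | η * n k ≤ S k x}
        from hk), ENNReal.toReal_ofReal (sq_nonneg _), F])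
    have h3 := h2.sqrt
    simp only [F, Real.sqrt_zero, Real.sqrt_sq (norm_nonneg _)] at h3
    refine FA.NormalBases.tendsto_avg_of_sparse (u := fun m => fourier l ((mulMap q)^[m] x))
      (fun m => le_of_eq (Circle.norm_coe _)) (M := M) (by omega)
      ((tendsto_add_atTop_iff_nat 1).1 (h3.congr fun k => ?_))
    rw [cMean, norm_div, Complex.norm_natCast, Nat.cast_pow]
  filter_upwards [ae_all_iff.2 fun l : ℤ => ae_all_iff.2 fun j : ℕ =>
    (show ∀ᵐ x ∂μ, l ≠ 0 → 1 / ((j : ℝ) + 1) < L x →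
      Tendsto (fun N : ℕ => cMean q l N x) atTop (𝓝 0) by
      rcases eq_or_ne l 0 with rfl | hl
      · exact Eventually.of_forall fun x h => absurd rfl h
      · exact (hone l j hl).mono fun x hx _ => hx)] with x hx hpos
  intro h hh
  obtain ⟨j, hj⟩ := exists_nat_one_div_lt hpos
  refine (hx h j hh hj).congr fun N => ?_
  simp only [cMean, FA.Equidist.avg, card_range, iterate_mulMap_rep,
    FA.Equidist.fourier_coe_eq_eAdd]

end FA.Rudolph

end
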