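import Fermat.Agent.KolmogorovSinai.Entropy
import Mathlib.MeasureTheory.Integral.Lebesgue.Add
import Mathlib.MeasureTheory.OuterMeasure.BorelCantelli

/-!
# The entropy function and the fibres of a map

The limit `g` of the conditional informations is the information of the present given the whole
future; its orbit averages are the entropy function, which no finite-to-one factor raises.
-/

set_option autoImplicit false

noncomputable section

open MeasureTheory Filter Topology Real MeasurableSpace
open FA.ShannonMcMillan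
open FA.KolmogorovSinai (entropy rate tendsto_rate sum_preimage_eq_one)
open scoped ENNReal

namespace FA.Rudolph

variable {α ι : Type*} {mα : MeasurableSpace α} {μ : Measure α} [IsProbabilityMeasure μ]
  [Fintype ι] [MeasurableSpace ι] [MeasurableSingletonClass ι] {T : α → α} {P : α → ι}

/-- **The entropy function.** -/
theorem exists_gap_average (hT : MeasurePreserving T μ μ) (hP : Measurable P) :
    ∃ g L : α → ℝ, Measurable g ∧ Measurable L ∧ Integrable L μ ∧ L ∘ T = L ∧
      ∫ x, L x ∂μ = rate μ T P ∧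
      (∀ᵐ x ∂μ, Tendsto (fun n => gap μ T P n x) atTop (𝓝 (g x))) ∧
      (∀ᵐ x ∂μ, Tendsto (fun n : ℕ => info μ T P n x / n) atTop (𝓝 (L x))) ∧
      ∀ᵐ x ∂μ,
        Tendsto (fun n : ℕ => (∑ j ∈ Finset.range n, g (T^[j] x)) / n) atTop (𝓝 (L x)) := by
  obtain ⟨G, hG, hb⟩ := exists_gap_bound hT hP
  obtain ⟨g, hgm, hlim⟩ := measurable_limit_of_tendsto_metrizable_ae
    (fun n => (measurable_gap hT.measurable hP n).aemeasurable) (exists_gap_limit hT hP)
  have hgb : ∀ᵐ x ∂μ, ∀ n, |gap μ T P n x| ≤ G x :=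
    hb.mono fun x hx n => by rw [abs_of_nonneg (hx n).1]; exact (hx n).2
  have hgi : Integrable g μ := hG.mono' hgm.aestronglyMeasurable (by
    filter_upwards [hgb, hlim] with x hx hl
    exact le_of_tendsto' hl.abs hx)
  have hmaker := tendsto_sum_reflect hT (measurable_gap hT.measurable hP) hgm hG hgb hlim
  simp only [← info_eq_sum_gap] at hmaker
  obtain ⟨L, hLm, hLi, hLT, hae, hmean, -⟩ := exists_entropy_limit hT hP
  refine ⟨g, L, hgm, hLm, hLi, hLT, ?_, hlim, hae, ?_⟩
  · simp only [integral_info hT.measurable hP] at hmean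
    exact tendsto_nhds_unique hmean (tendsto_rate hT hP)
  · filter_upwards [hmaker, hae, PointwiseErgodic.tendsto_average hT hgi] with x h1 h2 h3
    simp only [birkhoffAverage, birkhoffSum, smul_eq_mul, inv_mul_eq_div] at h3
    rwa [tendsto_nhds_unique h1 h2] at h3

/-- **A factor with finitely many choices does not raise the information.** -/
theorem ae_eventually_info_comp_le {q : ℕ} {S : α → α} (hS : MeasurePreserving S μ μ)
    (hT : Measurable T) (hP : Measurable P) {c : ℕ → α → Fin q}
    (hdet : ∀ n x y, word T P n x = word T P n y → c n x = c n y →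
      word T P n (S x) = word T P n (S y)) {ε : ℝ} (hε : 0 < ε) :
    ∀ᵐ x ∂μ, ∀ᶠ n : ℕ in atTop, info μ T P n (S x) ≤ info μ T P n x + ε * n := by
  classical
  set B : ℕ → Set α := fun n =>
    {x | μ.real (cyl T P n (S x)) < exp (-ε * n) * μ.real (cyl T P n x)}
  have hB : ∀ n, μ (B n) ≤ ENNReal.ofReal (q * exp (-ε) ^ n) := fun n => by
    set Y : α → (Fin n → ι) × Fin q := fun x => (word T P n x, c n x)
    have hle : ∀ v, μ (Y ⁻¹' {v} ∩ B n) ≤
        ENNReal.ofReal (exp (-ε * n) * μ.real (word T P n ⁻¹' {v.1})) := fun v => by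
      rcases (Y ⁻¹' {v} ∩ B n).eq_empty_or_nonempty with h | ⟨x, hxv, hxB⟩
      · simp [h]
      have hx1 : word T P n x = v.1 := congrArg Prod.fst hxv
      have hx2 : c n x = v.2 := congrArg Prod.snd hxv
      calc μ (Y ⁻¹' {v} ∩ B n) ≤ μ (S ⁻¹' cyl T P n (S x)) := by
            refine measure_mono fun y hy => hdet n y x ?_ ?_
            · exact (congrArg Prod.fst hy.1).trans hx1.symm
            · exact (congrArg Prod.snd hy.1).trans hx2.symm
        _ = μ (cyl T P n (S x)) := hS.measure_preimage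
            ((measurable_word hT hP n) (measurableSet_singleton _)).nullMeasurableSet
        _ = ENNReal.ofReal (μ.real (cyl T P n (S x))) :=
            (ofReal_measureReal (measure_ne_top _ _)).symm
        _ ≤ _ := ENNReal.ofReal_le_ofReal (by
            have h := le_of_lt (show μ.real (cyl T P n (S x)) <
              exp (-ε * n) * μ.real (cyl T P n x) from hxB)
            rwa [show cyl T P n x = word T P n ⁻¹' {v.1} by rw [cyl, hx1]] at h)
    calc μ (B n) ≤ μ (⋃ v, Y ⁻¹' {v} ∩ B n) := measure_mono fun x hx =>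
          Set.mem_iUnion.2 ⟨Y x, rfl, hx⟩
      _ ≤ ∑ v, μ (Y ⁻¹' {v} ∩ B n) := measure_iUnion_fintype_le _ _
      _ ≤ ∑ v : (Fin n → ι) × Fin q,
            ENNReal.ofReal (exp (-ε * n) * μ.real (word T P n ⁻¹' {v.1})) :=
          Finset.sum_le_sum fun v _ => hle v
      _ = _ := by
          rw [← ENNReal.ofReal_sum_of_nonneg fun v _ => by positivity, Fintype.sum_prod_type]
          simp only [Finset.sum_const, Finset.card_univ, Fintype.card_fin, nsmul_eq_mul,
            ← Finset.mul_sum]
          rw [sum_preimage_eq_one (measurable_word hT hP n), mul_one, mul_comm (-ε),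
            Real.exp_nat_mul]
  have hsum : ∑' n, μ (B n) ≠ ⊤ :=
    ne_top_of_le_ne_top ((ENNReal.ofReal_tsum_of_nonneg (fun n => by positivity)
      ((summable_geometric_of_lt_one (exp_pos _).le
        (exp_lt_one_iff.2 (neg_lt_zero.2 hε))).mul_left (q : ℝ))).symm ▸ ENNReal.ofReal_ne_top)
      (ENNReal.tsum_le_tsum hB)
  filter_upwards [ae_eventually_notMem hsum, ae_cyl_pos (μ := μ) (T := T) (P := P)] with x hx hpos
  filter_upwards [hx] with n hn
  have h1 : exp (-ε * n) * μ.real (cyl T P n x) ≤ μ.real (cyl T P n (S x)) := not_lt.1 hn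
  have h2 := log_le_log (mul_pos (exp_pos _) (hpos n)) h1
  rw [log_mul (exp_pos _).ne' (hpos n).ne', log_exp] at h2
  simp only [info]
  linarith

/-- **The entropy function is invariant under such a factor.** -/
theorem comp_ae_eq_of_factor {q : ℕ} {S : α → α} (hS : MeasurePreserving S μ μ)
    (hT : Measurable T) (hP : Measurable P) {c : ℕ → α → Fin q}
    (hdet : ∀ n x y, word T P n x = word T P n y → c n x = c n y →
      word T P n (S x) = word T P n (S y)) {L : α → ℝ} (hLi : Integrable L μ)
    (hL : ∀ᵐ x ∂μ, Tendsto (fun n : ℕ => info μ T P n x / n) atTop (𝓝 (L x))) :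
    L ∘ S =ᵐ[μ] L := by
  have hle : ∀ᵐ x ∂μ, L (S x) ≤ L x := by
    filter_upwards [hL, hS.quasiMeasurePreserving.ae hL, ae_all_iff.2 fun j : ℕ =>
      ae_eventually_info_comp_le hS hT hP hdet (show (0 : ℝ) < 1 / (j + 1) by positivity)]
      with x hx hSx hj
    refine le_of_forall_pos_le_add fun ε hε => ?_
    obtain ⟨j, hjε⟩ := exists_nat_one_div_lt hε
    refine le_trans ?_ (add_le_add le_rfl hjε.le)
    refine le_of_tendsto_of_tendsto hSx (hx.add_const _) ?_
    filter_upwards [hj j, eventually_gt_atTop 0] with n hn hn0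
    rw [div_add' _ _ _ (Nat.cast_ne_zero.2 hn0.ne'),
      div_le_div_iff_of_pos_right (Nat.cast_pos.2 hn0)]
    exact hn
  have hLSi : Integrable (L ∘ S) μ := hS.integrable_comp_of_integrable hLi
  have h0 : ∫ x, (L x - L (S x)) ∂μ = 0 := by
    rw [integral_sub hLi (show Integrable (fun x => L (S x)) μ from hLSi),
      ← integral_map hS.measurable.aemeasurable
      (by rw [hS.map_eq]; exact hLi.aestronglyMeasurable), hS.map_eq, sub_self]
  filter_upwards [(integral_eq_zero_iff_of_nonneg_ae
    (hle.mono fun x hx => sub_nonneg.2 hx) (hLi.sub hLSi)).1 h0] with x hx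
  exact (sub_eq_zero.1 hx).symm

/-- **The finite inequality.** -/
theorem lintegral_mul_info_le (hT : MeasurePreserving T μ μ) (hP : Measurable P) {n m : ℕ}
    {F : α → ℝ} {Φ : (Fin n → ι) → (Fin m → ι) → ℝ} (hΦ0 : ∀ w v, 0 ≤ Φ w v) {C : ℝ}
    (hΦ : ∀ x, F x ≤ Φ (word T P n x) (word T P m (T^[n] x))) (hC : ∀ v, ∑ w, Φ w v ≤ C) :
    ∫⁻ x, ENNReal.ofReal (F x * exp (info μ T P (n + m) x - info μ T P m (T^[n] x))) ∂μ ≤
      ENNReal.ofReal C := by
  classical
  set Y : α → (Fin n → ι) × (Fin m → ι) := fun x => (word T P n x, word T P m (T^[n] x))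
  have hW := measurable_word (P := P) hT.measurable hP
  have hY : Measurable Y := (hW n).prodMk ((hW m).comp (hT.measurable.iterate n))
  set R : (Fin n → ι) × (Fin m → ι) → ℝ≥0∞ := fun u =>
    ENNReal.ofReal (Φ u.1 u.2) * (μ (word T P m ⁻¹' {u.2}) / μ (Y ⁻¹' {u}))
  have hcyl : ∀ x, cyl T P (n + m) x = Y ⁻¹' {Y x} := fun x => by
    ext y
    simp only [mem_cyl, Set.mem_preimage, Set.mem_singleton_iff, Y, Prod.ext_iff, word, funext_iff,
      Fin.forall_iff, ← Function.iterate_add_apply]
    constructor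
    · exact fun h => ⟨fun i hi => h i (by omega), fun i hi => h (i + n) (by omega)⟩
    · intro h i hi
      rcases lt_or_ge i n with h' | h'
      · exact h.1 i h'
      · have := h.2 (i - n) (by omega)
        rwa [Nat.sub_add_cancel h'] at this
  have hle : ∀ᵐ x ∂μ,
      ENNReal.ofReal (F x * exp (info μ T P (n + m) x - info μ T P m (T^[n] x))) ≤ R (Y x) := by
    filter_upwards [ae_cyl_pos (μ := μ) (T := T) (P := P),
      (hT.iterate n).quasiMeasurePreserving.ae (ae_cyl_pos (μ := μ) (T := T) (P := P))]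
      with x hx hTx
    have e : exp (info μ T P (n + m) x - info μ T P m (T^[n] x)) =
        μ.real (cyl T P m (T^[n] x)) / μ.real (cyl T P (n + m) x) := by
      rw [info, info, neg_sub_neg, ← log_div (hTx m).ne' (hx _).ne',
        exp_log (div_pos (hTx m) (hx _))]
    rw [e, mul_comm, ENNReal.ofReal_mul (by positivity), ENNReal.ofReal_div_of_pos (hx _),
      ofReal_measureReal (measure_ne_top _ _), ofReal_measureReal (measure_ne_top _ _), hcyl,
      mul_comm]
    exact mul_le_mul' (ENNReal.ofReal_le_ofReal (hΦ x)) le_rfl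
  refine (lintegral_mono_ae hle).trans ?_
  rw [← lintegral_map (measurable_of_finite R) hY, lintegral_fintype]
  calc ∑ u, R u * μ.map Y {u}
      ≤ ∑ u : (Fin n → ι) × (Fin m → ι),
          ENNReal.ofReal (Φ u.1 u.2) * μ (word T P m ⁻¹' {u.2}) := by
        refine Finset.sum_le_sum fun u _ => ?_
        rw [Measure.map_apply hY (measurableSet_singleton u)]
        simp only [R, mul_assoc]
        refine mul_le_mul' le_rfl ?_
        rcases eq_or_ne (μ (Y ⁻¹' {u})) 0 with h | h
        · rw [h, mul_zero]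
          exact zero_le
        · rw [ENNReal.div_mul_cancel h (measure_ne_top _ _)]
    _ = ∑ v, ENNReal.ofReal (∑ w, Φ w v) * μ (word T P m ⁻¹' {v}) := by
        rw [Fintype.sum_prod_type, Finset.sum_comm]
        refine Finset.sum_congr rfl fun v _ => ?_
        rw [ENNReal.ofReal_sum_of_nonneg fun w _ => hΦ0 w v, Finset.sum_mul]
    _ ≤ ∑ v, ENNReal.ofReal C * μ (word T P m ⁻¹' {v}) :=
        Finset.sum_le_sum fun v _ => mul_le_mul' (ENNReal.ofReal_le_ofReal (hC v)) le_rfl
    _ = ENNReal.ofReal C := by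
        rw [← Finset.mul_sum, sum_measure_preimage_singleton _ fun v _ =>
          (hW m) (measurableSet_singleton v), Finset.coe_univ, Set.preimage_univ, measure_univ,
          mul_one]

omit [Fintype ι] [MeasurableSpace ι] [MeasurableSingletonClass ι] [IsProbabilityMeasure μ] in
theorem info_sub_eq_sum_gap (n : ℕ) : ∀ (m : ℕ) (x : α),
    info μ T P (n + m) x - info μ T P m (T^[n] x) =
      ∑ i ∈ Finset.range n, gap μ T P (n - 1 - i + m) (T^[i] x) := by
  induction n with
  | zero => simp
  | succ n ih =>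
    intro m x
    have h := ih m (T x)
    simp only [← Function.iterate_succ_apply] at h
    rw [Finset.sum_range_succ', Function.iterate_zero_apply,
      show n + 1 + m = (n + m) + 1 by omega]
    simp only [Nat.add_sub_cancel, Nat.sub_zero]
    rw [show ∑ i ∈ Finset.range n, gap μ T P (n - (i + 1) + m) (T^[i + 1] x) =
      info μ T P (n + m) (T x) - info μ T P m (T^[n + 1] x) from h.symm ▸
        Finset.sum_congr rfl fun i _ => by rw [show n - (i + 1) = n - 1 - i by omega], gap]
    ring

/-- **The fibre inequality.** -/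
theorem lintegral_mul_exp_le (hT : MeasurePreserving T μ μ) (hP : Measurable P) {g : α → ℝ}
    (hg : ∀ᵐ x ∂μ, Tendsto (fun k => gap μ T P k x) atTop (𝓝 (g x))) {n : ℕ} {F : α → ℝ}
    (hF : Measurable F) {C : ℝ}
    (hC : ∀ ω > 0, ∀ᶠ m in atTop, ∃ Φ : (Fin n → ι) → (Fin m → ι) → ℝ, (∀ w v, 0 ≤ Φ w v) ∧
      (∀ x, F x ≤ Φ (word T P n x) (word T P m (T^[n] x))) ∧ ∀ v, ∑ w, Φ w v ≤ C + ω) :
    ∫⁻ x, ENNReal.ofReal (F x * exp (∑ i ∈ Finset.range n, g (T^[i] x))) ∂μ ≤
      ENNReal.ofReal C := by
  set f : ℕ → α → ℝ≥0∞ := fun m x =>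
    ENNReal.ofReal (F x * exp (info μ T P (n + m) x - info μ T P m (T^[n] x)))
  have hf : ∀ m, Measurable (f m) := fun m => (hF.mul
    ((measurable_info hT.measurable hP _).sub
      ((measurable_info hT.measurable hP _).comp (hT.measurable.iterate n))).exp).ennreal_ofReal
  have hlim : ∀ᵐ x ∂μ, Tendsto (fun m => f m x) atTop
      (𝓝 (ENNReal.ofReal (F x * exp (∑ i ∈ Finset.range n, g (T^[i] x))))) := by
    filter_upwards [ae_all_iff.2 fun i : ℕ => (hT.iterate i).quasiMeasurePreserving.ae hg]
      with x hx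
    simp only [f, info_sub_eq_sum_gap]
    refine ENNReal.tendsto_ofReal (((continuous_exp.tendsto _).comp
      (tendsto_finsetSum _ fun i _ => ?_)).const_mul _)
    refine (((tendsto_add_atTop_iff_nat (n - 1 - i)).2 (hx i))).congr fun m => ?_
    rw [Nat.add_comm]
  refine ENNReal.le_of_forall_pos_le_add fun ω hω _ => ?_
  calc ∫⁻ x, ENNReal.ofReal (F x * exp (∑ i ∈ Finset.range n, g (T^[i] x))) ∂μ
      = ∫⁻ x, liminf (fun m => f m x) atTop ∂μ :=
        lintegral_congr_ae (hlim.mono fun x hx => hx.liminf_eq.symm)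
    _ ≤ liminf (fun m => ∫⁻ x, f m x ∂μ) atTop := lintegral_liminf_le' fun m => (hf m).aemeasurable
    _ ≤ ENNReal.ofReal (C + ω) := by
        refine liminf_le_of_frequently_le' ((hC ω hω).mono fun m ⟨Φ, h0, h1, h2⟩ => ?_).frequently
        exact lintegral_mul_info_le hT hP h0 h1 h2
    _ ≤ ENNReal.ofReal C + ω := ENNReal.ofReal_add_le.trans (by simp)

end FA.Rudolph

end
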