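import Fermat.Agent.Rudolph.Estimate
import Mathlib.Dynamics.Ergodic.AddCircle
import Mathlib.MeasureTheory.Measure.HasOuterApproxClosed

/-!
# The theorems of Host and Rudolph

The entropy function is invariant under multiplication by `q`, so for a jointly ergodic measure
of positive entropy almost every orbit is equidistributed and the measure is Haar measure.
-/

set_option autoImplicit false

noncomputable section

open MeasureTheory Filter Topology Finset
open FA.ShannonMcMillan (word info measurable_word)
open FA.KolmogorovSinai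
open scoped ENNReal

namespace FA.Rudolph

variable {p q : ℕ} {μ : Measure UnitAddCircle} [IsProbabilityMeasure μ]

/-- The orbit averages of every continuous function converge to its Haar integral. -/
theorem tendsto_orbit_average {x : UnitAddCircle}
    (hx : FA.Equidist.ExpMeanZero range fun m => (q : ℝ) ^ m * rep x)
    (f : C(UnitAddCircle, ℂ)) :
    Tendsto (fun N : ℕ => (∑ m ∈ range N, f ((mulMap q)^[m] x)) / (N : ℂ)) atTop
      (𝓝 (∫ y, f y)) := by
  have h := FA.Equidist.tendsto_avg_circle (s := range)
    (by simp only [card_range]; exact tendsto_id) hx f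
  rw [FA.Equidist.circMean] at h
  rw [AddCircle.volume_eq_smul_haarAddCircle, ENNReal.ofReal_one, one_smul]
  refine h.congr fun N => ?_
  simp only [FA.Equidist.avg, card_range, iterate_mulMap_rep]

theorem rate_pos [NeZero p] (hp : 2 ≤ p) (hT : MeasurePreserving (mulMap p) μ μ)
    (h : 0 < ksEntropy μ (mulMap p)) : 0 < rate μ (mulMap p) (digit p) := by
  rwa [ksEntropy_eq_rate hT (measurable_digit p) (iSup_comap_digit p hp),
    ENNReal.ofReal_pos] at h

/-- **Host's theorem.** -/
theorem host (hp : 2 ≤ p) (hq : 2 ≤ q) (hpq : p.Coprime q) (hT : Ergodic (mulMap p) μ)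
    (h : 0 < ksEntropy μ (mulMap p)) :
    ∀ᵐ x ∂μ, FA.Equidist.ExpMeanZero range fun m => (q : ℝ) ^ m * rep x := by
  have : NeZero p := ⟨by omega⟩
  obtain ⟨g, L, hgm, -, hLi, hLT, hLint, hg, -, hgL⟩ :=
    exists_gap_average hT.toMeasurePreserving (measurable_digit p)
  obtain ⟨c, hc⟩ := hT.ae_eq_const_of_ae_eq_comp_ae hLi.aestronglyMeasurable
    (EventuallyEq.of_eq hLT)
  have hc0 : 0 < c := by
    have := rate_pos hp hT.toMeasurePreserving h
    rw [← hLint, integral_congr_ae hc] at this
    simpa using this
  filter_upwards [ae_expMeanZero_of_pos p hp hq hpq hT.toMeasurePreserving hgm hg hgL, hc]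
    with x hx hx'
  exact hx (hx' ▸ hc0)

/-- A set strictly invariant under `T` and almost invariant under a commuting `S` is almost equal
to one strictly invariant under both. -/
theorem exists_invariant_both {α : Type*} {mα : MeasurableSpace α} {ν : Measure α} {T S : α → α}
    (hcomm : Function.Commute T S) (hS : MeasurePreserving S ν ν) {s : Set α}
    (hs : MeasurableSet s) (hT : T ⁻¹' s = s) (hSs : S ⁻¹' s =ᵐ[ν] s) :
    ∃ A, MeasurableSet A ∧ T ⁻¹' A = A ∧ S ⁻¹' A = A ∧ A =ᵐ[ν] s := by
  set A : Set α := {x | ∃ᶠ k : ℕ in atTop, S^[k] x ∈ s}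
  have hA : MeasurableSet A := by
    have : A = ⋂ k : ℕ, ⋃ i ∈ Set.Ici k, S^[i] ⁻¹' s := by
      ext x
      simp [A, frequently_atTop]
    rw [this]
    exact MeasurableSet.iInter fun k =>
      MeasurableSet.biUnion (Set.to_countable _) fun i _ => (hS.measurable.iterate i) hs
  refine ⟨A, hA, ?_, ?_, ?_⟩
  · ext x
    simp only [A, Set.mem_preimage, Set.mem_ofPred_eq]
    refine frequently_congr (Eventually.of_forall fun k => ?_)
    rw [← (hcomm.iterate_right k).eq]
    exact Set.ext_iff.1 hT _
  · ext x
    simp only [A, Set.mem_preimage, Set.mem_ofPred_eq, ← Function.iterate_succ_apply]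
    exact ⟨fun h => (tendsto_add_atTop_nat 1).frequently h, fun h => by
      rw [frequently_atTop] at h ⊢
      intro a
      obtain ⟨b, hb, hbs⟩ := h (a + 1)
      exact ⟨b - 1, by omega, by rwa [show (b - 1).succ = b by omega]⟩⟩
  · have hk : ∀ k : ℕ, ∀ᵐ x ∂ν, S^[k] x ∈ s ↔ x ∈ s := fun k => by
      induction k with
      | zero => simp
      | succ k ih =>
        filter_upwards [hS.quasiMeasurePreserving.ae ih, hSs.mem_iff] with x h1 h2
        rw [Function.iterate_succ_apply]
        exact h1.trans h2
    filter_upwards [ae_all_iff.2 hk] with x hx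
    refine propext ?_
    show (∃ᶠ k : ℕ in atTop, S^[k] x ∈ s) ↔ x ∈ s
    simp only [hx, frequently_const]

/-- **Rudolph's theorem.** -/
theorem rudolph (hp : 2 ≤ p) (hq : 2 ≤ q) (hpq : p.Coprime q)
    (hT : MeasurePreserving (mulMap p) μ μ) (hS : MeasurePreserving (mulMap q) μ μ)
    (herg : ∀ s, MeasurableSet s → mulMap p ⁻¹' s = s → mulMap q ⁻¹' s = s → μ s = 0 ∨ μ sᶜ = 0)
    (h : 0 < ksEntropy μ (mulMap p)) : μ = volume := by
  have : NeZero p := ⟨by omega⟩
  have : NeZero q := ⟨by omega⟩
  obtain ⟨g, L, hgm, hLm, hLi, hLT, hLint, hg, hinfo, hgL⟩ :=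
    exists_gap_average hT (measurable_digit p)
  have hLS : L ∘ mulMap q =ᵐ[μ] L := comp_ae_eq_of_factor hS hT.measurable (measurable_digit p)
    (c := fun n => digit q ∘ (mulMap p)^[n]) (fun n x y h1 h2 => word_mulMap_eq p q h1 h2) hLi hinfo
  -- the entropy function is positive almost everywhere
  have hpos : ∀ᵐ x ∂μ, 0 < L x := by
    set s : Set UnitAddCircle := {x | 0 < L x}
    obtain ⟨A, hA, hAT, hAS, hAs⟩ := exists_invariant_both (T := mulMap p) (S := mulMap q)
      (fun x => by simp only [mulMap, ← mul_nsmul', Nat.mul_comm]) hS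
      (measurableSet_lt measurable_const hLm : MeasurableSet s)
      (by ext x; exact iff_of_eq (congrArg (0 < ·) (congrFun hLT x)))
      (hLS.mono fun x hx => propext (iff_of_eq (congrArg (0 < ·) hx)))
    rcases herg A hA hAT hAS with h0 | h0
    · exfalso
      have h1 : μ s = 0 := (measure_congr hAs).symm.trans h0
      have h2 : ∫ x, L x ∂μ ≤ 0 := integral_nonpos_of_ae (by
        filter_upwards [measure_eq_zero_iff_ae_notMem.1 h1] with x hx
        exact not_lt.1 hx)
      linarith [rate_pos hp hT h]
    · have h1 : μ sᶜ = 0 := (measure_congr hAs.compl).symm.trans h0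
      filter_upwards [measure_eq_zero_iff_ae_notMem.1 h1] with x hx
      exact not_not.1 hx
  have hequi : ∀ᵐ x ∂μ, FA.Equidist.ExpMeanZero range fun m => (q : ℝ) ^ m * rep x := by
    filter_upwards [ae_expMeanZero_of_pos p hp hq hpq hT hgm hg hgL, hpos] with x hx hx'
    exact hx hx'
  refine ext_of_forall_integral_eq_of_IsFiniteMeasure fun f => ?_
  set fc : C(UnitAddCircle, ℂ) := ⟨fun x => (f x : ℂ), Complex.continuous_ofReal.comp f.continuous⟩
  have hbound : ∀ (N : ℕ) (x : UnitAddCircle),
      ‖(∑ m ∈ range N, fc ((mulMap q)^[m] x)) / (N : ℂ)‖ ≤ ‖fc‖ := fun N x => by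
    rw [norm_div, Complex.norm_natCast]
    refine div_le_of_le_mul₀ N.cast_nonneg (norm_nonneg _)
      ((norm_sum_le_of_le _ fun m _ => fc.norm_coe_le_norm _).trans (le_of_eq ?_))
    rw [Finset.sum_const, card_range, nsmul_eq_mul, mul_comm]
  have hcont : ∀ m : ℕ, Continuous fun x => fc ((mulMap q)^[m] x) := fun m =>
    fc.continuous.comp ((continuous_mulMap q).iterate m)
  have hint : ∀ m : ℕ, Integrable (fun x => fc ((mulMap q)^[m] x)) μ := fun m =>
    (hcont m).integrable_of_hasCompactSupport (HasCompactSupport.of_compactSpace _)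
  have hlim := tendsto_integral_of_dominated_convergence
    (F := fun (N : ℕ) x => (∑ m ∈ range N, fc ((mulMap q)^[m] x)) / (N : ℂ))
    (f := fun _ => ∫ y, fc y) (fun _ => ‖fc‖)
    (fun N => ((continuous_finsetSum _ fun m _ => hcont m).div_const _).aestronglyMeasurable)
    (integrable_const _) (fun N => Eventually.of_forall (hbound N))
    (hequi.mono fun x hx => tendsto_orbit_average hx fc)
  have hconst : ∀ᶠ N : ℕ in atTop,
      (∫ x, (∑ m ∈ range N, fc ((mulMap q)^[m] x)) / (N : ℂ) ∂μ) = ∫ x, fc x ∂μ := by
    filter_upwards [eventually_gt_atTop 0] with N hN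
    rw [integral_div, integral_finsetSum _ fun m _ => hint m]
    have : ∀ m : ℕ, ∫ x, fc ((mulMap q)^[m] x) ∂μ = ∫ x, fc x ∂μ := fun m => by
      rw [← integral_map (hS.iterate m).measurable.aemeasurable
        fc.continuous.stronglyMeasurable.aestronglyMeasurable, (hS.iterate m).map_eq]
    simp only [this, Finset.sum_const, card_range, nsmul_eq_mul]
    exact mul_div_cancel_left₀ _ (Nat.cast_ne_zero.2 hN.ne')
  simp only [integral_const, probReal_univ, one_smul] at hlim
  have := tendsto_nhds_unique (tendsto_const_nhds.congr' (hconst.mono fun N hN => hN.symm)) hlim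
  simp only [fc, ContinuousMap.coe_mk, integral_complex_ofReal] at this
  exact_mod_cast this

/-- Haar measure has positive entropy. -/
theorem ksEntropy_volume_pos (hp : 2 ≤ p) :
    0 < ksEntropy (volume : Measure UnitAddCircle) (mulMap p) := by
  have : NeZero p := ⟨by omega⟩
  have : IsProbabilityMeasure (volume : Measure UnitAddCircle) :=
    ⟨by rw [AddCircle.measure_univ, ENNReal.ofReal_one]⟩
  have hT : MeasurePreserving (mulMap p) (volume : Measure UnitAddCircle) volume :=
    (AddCircle.ergodic_nsmul (T := (1 : ℝ)) (n := p) (by omega)).toMeasurePreserving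
  rw [ksEntropy_eq_rate hT (measurable_digit p) (iSup_comap_digit p hp), ENNReal.ofReal_pos]
  refine lt_of_lt_of_le (Real.log_pos (Nat.one_lt_cast.2 hp)) ?_
  have hlim : Tendsto (fun n : ℕ => Real.log p - Real.log 2 / n) atTop (𝓝 (Real.log p)) := by
    simpa using tendsto_const_nhds.sub
      (tendsto_const_nhds.div_atTop tendsto_natCast_atTop_atTop (a := Real.log 2))
  refine le_of_tendsto_of_tendsto hlim (tendsto_rate hT (measurable_digit p)) ?_
  filter_upwards [eventually_gt_atTop 0] with n hn
  set ν : Measure UnitAddCircle := volume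
  have hpn : (0 : ℝ) < (p : ℝ) ^ n := pow_pos (Nat.cast_pos.2 (by omega)) n
  have hcell : ∀ w, ν.real (word (mulMap p) (digit p) n ⁻¹' {w}) ≤ 2 / (p : ℝ) ^ n := fun w => by
    rcases (word (mulMap p) (digit p) n ⁻¹' {w}).eq_empty_or_nonempty with h | ⟨y, hy⟩
    · rw [h, measureReal_empty]
      positivity
    refine ENNReal.toReal_le_of_le_ofReal (by positivity) ?_
    rw [AddCircle.add_projection_respects_measure (1 : ℝ) 0
      (measurable_word hT.measurable (measurable_digit p) n (measurableSet_singleton w))]
    calc volume _ ≤ volume (Set.Icc (rep y - 1 / (p : ℝ) ^ n) (rep y + 1 / (p : ℝ) ^ n) ∪ {1}) := by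
          refine measure_mono fun a ha => ?_
          obtain ⟨ha1, ha2⟩ := ha
          rw [zero_add] at ha2
          rcases ha2.2.eq_or_lt with h1 | h1
          · exact Or.inr h1
          refine Or.inl ?_
          have h2 := abs_rep_sub_le p (show word (mulMap p) (digit p) n (a : UnitAddCircle) =
            word (mulMap p) (digit p) n y from ha1.trans hy.symm)
          rw [rep_coe, Int.fract_eq_self.2 ⟨ha2.1.le, h1⟩, abs_le] at h2
          exact ⟨by linarith, by linarith⟩
      _ ≤ _ := by
          refine (measure_union_le _ _).trans ?_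
          rw [Real.volume_Icc, Real.volume_singleton, add_zero]
          exact ENNReal.ofReal_le_ofReal (le_of_eq (by ring))
  have key : n * Real.log p - Real.log 2 ≤ entropy ν (word (mulMap p) (digit p) n) := by
    calc n * Real.log p - Real.log 2
        = ∑ w, ν.real (word (mulMap p) (digit p) n ⁻¹' {w}) * (n * Real.log p - Real.log 2) := by
          rw [← Finset.sum_mul, sum_preimage_eq_one
            (measurable_word hT.measurable (measurable_digit p) n), one_mul]
      _ ≤ _ := Finset.sum_le_sum fun w _ => by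
          rcases (measureReal_nonneg (μ := ν)
            (s := word (mulMap p) (digit p) n ⁻¹' {w})).eq_or_lt with h | h
          · rw [← h]
            simp
          rw [Real.negMulLog, neg_mul, ← mul_neg]
          refine mul_le_mul_of_nonneg_left ?_ h.le
          have h1 := Real.log_le_log h (hcell w)
          rw [Real.log_div two_ne_zero hpn.ne', Real.log_pow] at h1
          linarith
  rw [le_div_iff₀ (Nat.cast_pos.2 hn), sub_mul, div_mul_cancel₀ _ (Nat.cast_ne_zero.2 hn.ne')]
  linarith

end FA.Rudolph

end
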